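import Mathlib

/-!
# Row LT, tower A2, leaf A2.14 (helper231): `ℓ¹`-independence of unitary characters

OFF-MAIN.  Mathlib only.

`coeff_eq_zero_of_tsum_eq_zero231`: let `η i`, `i : ι`, be unitary characters of an additive
commutative group `G` (no topology), `c : ι → ℂ` absolutely summable, `η i₀ = 1`, `η i ≠ 1` for
`i ≠ i₀`.  If `∑' i, c i * η i x = 0` for all `x`, then `c i₀ = 0`.

The proof is elementary (no Haar measure, no invariant mean): for finitely many nontrivial
characters there are finite families of points on which all of them have a small mean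
(iterated Cesàro means along one-parameter progressions `x + k • y`), and the tail of an
absolutely summable family is small.
-/

set_option autoImplicit false

open Finset

noncomputable section

namespace Fermat.Agent.LT.A2.H231

/-- The geometric sums of a complex number of modulus one, different from `1`, are bounded. -/
theorem norm_geom_sum_le231 (z : ℂ) (hz : ‖z‖ = 1) (hz1 : z ≠ 1) (N : ℕ) :
    ‖∑ k ∈ range N, z ^ k‖ ≤ 2 / ‖z - 1‖ := by
  rw [geom_sum_eq hz1, norm_div]
  have h0 : 0 < ‖z - 1‖ := norm_pos_iff.mpr (sub_ne_zero.mpr hz1)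
  have h2 : ‖z ^ N - 1‖ ≤ 2 := by
    calc ‖z ^ N - 1‖ ≤ ‖z ^ N‖ + ‖(1 : ℂ)‖ := norm_sub_le _ _
      _ = 2 := by rw [norm_pow, hz, one_pow, norm_one]; norm_num
  exact div_le_div_of_nonneg_right h2 h0.le

section Char

variable {G : Type*} [AddCommGroup G]

/-- A unitary character: multiplicative for the addition of `G`, of modulus one. -/
structure IsUChar231 (η : G → ℂ) : Prop where
  map_add : ∀ x y : G, η (x + y) = η x * η y
  norm_one : ∀ x : G, ‖η x‖ = 1

namespace IsUChar231

variable {η : G → ℂ}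

theorem ne_zero (h : IsUChar231 η) (x : G) : η x ≠ 0 := by
  intro h0
  have := h.norm_one x
  rw [h0, norm_zero] at this
  exact zero_ne_one this

theorem map_zero (h : IsUChar231 η) : η 0 = 1 := by
  have h1 : η 0 = η 0 * η 0 := by
    have := h.map_add 0 0
    rwa [add_zero] at this
  have h2 : η 0 ≠ 0 := h.ne_zero 0
  have h3 : η 0 * 1 = η 0 * η 0 := by rw [mul_one]; exact h1
  exact (mul_left_cancel₀ h2 h3).symm

theorem map_nsmul (h : IsUChar231 η) (k : ℕ) (y : G) : η (k • y) = η y ^ k := by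
  induction k with
  | zero => simp [h.map_zero]
  | succ k ih => rw [succ_nsmul, h.map_add, ih, pow_succ]

end IsUChar231

/-- **Separation.**  For finitely many nontrivial unitary characters and `δ > 0` there is a
nonempty finite family of points on which every one of them has a mean of modulus `≤ δ`. -/
theorem exists_small_means231 {ι : Type*} (η : ι → G → ℂ) (hη : ∀ i, IsUChar231 (η i))
    (δ : ℝ) (hδ : 0 < δ) (F : Finset ι) (hF : ∀ i ∈ F, ∃ y : G, η i y ≠ 1) :
    ∃ (J : Type) (_ : Fintype J) (x : J → G), 0 < Fintype.card J ∧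
      ∀ i ∈ F, ‖∑ j, η i (x j)‖ ≤ δ * Fintype.card J := by
  classical
  induction F using Finset.induction_on with
  | empty =>
    refine ⟨Unit, inferInstance, fun _ => 0, ?_, ?_⟩
    · simp
    · intro i hi
      simp at hi
  | insert a F ha ih =>
    obtain ⟨J, hJ, x, hcard, hx⟩ := ih (fun i hi => hF i (Finset.mem_insert_of_mem hi))
    obtain ⟨y, hy⟩ := hF a (Finset.mem_insert_self a F)
    have hpos : 0 < ‖η a y - 1‖ := norm_pos_iff.mpr (sub_ne_zero.mpr hy)
    -- the length of the progression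
    obtain ⟨N, hN⟩ := exists_nat_gt (2 / (δ * ‖η a y - 1‖))
    have hN0 : (0 : ℝ) < N := lt_of_le_of_lt (by positivity) hN
    have hNpos : 0 < N := by exact_mod_cast hN0
    have hgeo : 2 / ‖η a y - 1‖ ≤ δ * N := by
      have h1 : 2 / (δ * ‖η a y - 1‖) * (δ * ‖η a y - 1‖) = 2 := by
        field_simp
      have h2 : 2 < N * (δ * ‖η a y - 1‖) := by
        have := mul_lt_mul_of_pos_right hN (mul_pos hδ hpos)
        rwa [h1] at this
      rw [div_le_iff₀ hpos]
      nlinarith
    -- the sums over the product family factor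
    have hfac : ∀ i : ι, ∑ p : J × Fin N, η i (x p.1 + (p.2 : ℕ) • y)
        = (∑ j, η i (x j)) * ∑ k ∈ range N, η i y ^ k := by
      intro i
      rw [Fintype.sum_prod_type, Finset.sum_mul]
      refine Finset.sum_congr rfl fun j _ => ?_
      rw [← Fin.sum_univ_eq_sum_range (fun k => η i y ^ k) N, Finset.mul_sum]
      refine Finset.sum_congr rfl fun k _ => ?_
      rw [(hη i).map_add, (hη i).map_nsmul]
    have hle1 : ∀ (i : ι) (n : ℕ), ‖∑ k ∈ range n, η i y ^ k‖ ≤ n := by
      intro i n
      calc ‖∑ k ∈ range n, η i y ^ k‖ ≤ ∑ k ∈ range n, ‖η i y ^ k‖ := norm_sum_le _ _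
        _ = ∑ k ∈ range n, (1 : ℝ) := by
            refine Finset.sum_congr rfl fun k _ => ?_
            rw [norm_pow, (hη i).norm_one, one_pow]
        _ = n := by simp
    have hleJ : ∀ i : ι, ‖∑ j, η i (x j)‖ ≤ Fintype.card J := by
      intro i
      calc ‖∑ j, η i (x j)‖ ≤ ∑ j, ‖η i (x j)‖ := norm_sum_le _ _
        _ = ∑ _j : J, (1 : ℝ) := by
            refine Finset.sum_congr rfl fun j _ => ?_
            rw [(hη i).norm_one]
        _ = Fintype.card J := by simp
    refine ⟨J × Fin N, inferInstance, fun p => x p.1 + (p.2 : ℕ) • y, ?_, ?_⟩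
    · rw [Fintype.card_prod, Fintype.card_fin]
      exact Nat.mul_pos hcard hNpos
    · intro i hi
      have hcardR : ((Fintype.card (J × Fin N) : ℕ) : ℝ) = (Fintype.card J : ℝ) * N := by
        rw [Fintype.card_prod, Fintype.card_fin]; push_cast; ring
      rw [hfac i, norm_mul, hcardR]
      rcases Finset.mem_insert.mp hi with rfl | hiF
      · -- the new character: the progression kills it
        calc ‖∑ j, η i (x j)‖ * ‖∑ k ∈ range N, η i y ^ k‖
            ≤ (Fintype.card J : ℝ) * (2 / ‖η i y - 1‖) :=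
              mul_le_mul (hleJ i) (norm_geom_sum_le231 _ ((hη i).norm_one y) hy N)
                (norm_nonneg _) (Nat.cast_nonneg _)
          _ ≤ (Fintype.card J : ℝ) * (δ * N) :=
              mul_le_mul_of_nonneg_left hgeo (Nat.cast_nonneg _)
          _ = δ * ((Fintype.card J : ℝ) * N) := by ring
      · -- the old characters: the bound is inherited
        calc ‖∑ j, η i (x j)‖ * ‖∑ k ∈ range N, η i y ^ k‖
            ≤ (δ * Fintype.card J) * N :=
              mul_le_mul (hx i hiF) (hle1 i N) (norm_nonneg _)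
                (mul_nonneg hδ.le (Nat.cast_nonneg _))
          _ = δ * ((Fintype.card J : ℝ) * N) := by ring

/-- **`ℓ¹`-independence of unitary characters.**  If an absolutely summable combination of
pairwise different unitary characters vanishes identically, then the coefficient of the trivial
character is `0`.  (Stated for a family `η` with `η i₀ = 1` and `η i ≠ 1` for `i ≠ i₀`.) -/
theorem coeff_eq_zero_of_tsum_eq_zero231 {ι : Type*} (η : ι → G → ℂ)
    (hη : ∀ i, IsUChar231 (η i)) (c : ι → ℂ) (hc : Summable fun i => ‖c i‖) (i₀ : ι)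
    (h₀ : ∀ x : G, η i₀ x = 1) (hsep : ∀ i, i ≠ i₀ → ∃ y : G, η i y ≠ 1)
    (hsum : ∀ x : G, ∑' i, c i * η i x = 0) : c i₀ = 0 := by
  classical
  have hsummable : ∀ x : G, Summable fun i => c i * η i x := by
    intro x
    refine Summable.of_norm ?_
    refine hc.congr fun i => ?_
    rw [norm_mul, (hη i).norm_one, mul_one]
  set T : ℝ := ∑' i, ‖c i‖ with hT
  have hT0 : 0 ≤ T := tsum_nonneg fun i => norm_nonneg _
  -- it suffices to bound the norm by every `ε > 0`
  rw [← norm_le_zero_iff]
  refine le_of_forall_pos_le_add fun ε hε => ?_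
  rw [zero_add]
  -- the tail
  obtain ⟨F₀, hF₀⟩ : ∃ F₀ : Finset ι, T - ∑ i ∈ F₀, ‖c i‖ < ε / 2 := by
    have hlim := hc.hasSum
    rw [HasSum] at hlim
    have hmem : Set.Ioi (T - ε / 2) ∈ nhds T := Ioi_mem_nhds (by linarith)
    obtain ⟨F₀, hF₀⟩ := (Filter.mem_map.mp (hlim hmem) |> Filter.mem_atTop_sets.mp)
    refine ⟨F₀, ?_⟩
    have := hF₀ F₀ le_rfl
    simp only [Set.mem_preimage, Set.mem_Ioi] at this
    linarith
  set tail : ι → ℝ := fun i => if i ∈ F₀ then 0 else ‖c i‖ with htail
  have htail_le : ∀ i, tail i ≤ ‖c i‖ := by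
    intro i
    simp only [htail]
    split_ifs
    · exact norm_nonneg _
    · exact le_rfl
  have htail0 : ∀ i, 0 ≤ tail i := by
    intro i
    simp only [htail]
    split_ifs
    · exact le_rfl
    · exact norm_nonneg _
  have htail_sum : Summable tail := Summable.of_nonneg_of_le htail0 htail_le hc
  have htail_tsum : ∑' i, tail i = T - ∑ i ∈ F₀, ‖c i‖ := by
    have h1 : ∑' i, (if i ∈ F₀ then ‖c i‖ else 0) = ∑ i ∈ F₀, ‖c i‖ := by
      rw [tsum_eq_sum (s := F₀)]
      · refine Finset.sum_congr rfl fun i hi => ?_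
        rw [if_pos hi]
      · intro i hi
        rw [if_neg hi]
    have h2 : Summable fun i => (if i ∈ F₀ then ‖c i‖ else 0) :=
      summable_of_ne_finset_zero (s := F₀) fun i hi => by rw [if_neg hi]
    have h3 : ∀ i, ‖c i‖ = (if i ∈ F₀ then ‖c i‖ else 0) + tail i := by
      intro i
      simp only [htail]
      split_ifs <;> simp
    have h4 : T = ∑ i ∈ F₀, ‖c i‖ + ∑' i, tail i := by
      calc T = ∑' i, ((if i ∈ F₀ then ‖c i‖ else 0) + tail i) := hT.trans (tsum_congr h3)
        _ = ∑ i ∈ F₀, ‖c i‖ + ∑' i, tail i := by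
            rw [Summable.tsum_add h2 htail_sum, h1]
    linarith
  -- the points
  set δ : ℝ := ε / (2 * (T + 1)) with hδdef
  have hδ : 0 < δ := by positivity
  have hδT : δ * T ≤ ε / 2 := by
    rw [hδdef, div_mul_eq_mul_div, div_le_div_iff₀ (by positivity) (by norm_num)]
    nlinarith
  obtain ⟨J, hJ, x, hcard, hx⟩ := exists_small_means231 η hη δ hδ (F₀.erase i₀)
    (fun i hi => hsep i (Finset.ne_of_mem_erase hi))
  set M : ℝ := (Fintype.card J : ℝ) with hM
  have hM0 : 0 < M := by rw [hM]; exact_mod_cast hcard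
  set S : ι → ℂ := fun i => ∑ j, η i (x j) with hS
  have hSle : ∀ i, ‖S i‖ ≤ M := by
    intro i
    calc ‖S i‖ ≤ ∑ j, ‖η i (x j)‖ := norm_sum_le _ _
      _ = ∑ _j : J, (1 : ℝ) := by
          refine Finset.sum_congr rfl fun j _ => ?_
          rw [(hη i).norm_one]
      _ = M := by simp [hM]
  have hS0 : S i₀ = (M : ℂ) := by
    simp only [hS, h₀, hM]
    simp
  -- the sum of the `c i * S i` vanishes
  have hcS : ∑' i, c i * S i = 0 := by
    have h1 : ∀ i, c i * S i = ∑ j, c i * η i (x j) := by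
      intro i
      rw [hS, Finset.mul_sum]
    simp_rw [h1]
    rw [Summable.tsum_finsetSum fun j _ => hsummable (x j)]
    exact Finset.sum_eq_zero fun j _ => hsum (x j)
  have hcS_summable : Summable fun i => c i * S i := by
    have h1 : (fun i => c i * S i) = fun i => ∑ j, c i * η i (x j) := by
      funext i
      rw [hS, Finset.mul_sum]
    rw [h1]
    exact summable_sum fun j _ => hsummable (x j)
  -- split off the term `i₀`
  have hsplit := hcS_summable.tsum_eq_add_tsum_ite i₀
  rw [hcS, hS0] at hsplit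
  have hrest : c i₀ * (M : ℂ) = - ∑' i, ite (i = i₀) 0 (c i * S i) := by
    rw [eq_neg_iff_add_eq_zero]
    exact hsplit.symm
  -- the bound of the rest
  have hbound : ∀ i, ‖ite (i = i₀) 0 (c i * S i)‖ ≤ δ * M * ‖c i‖ + M * tail i := by
    intro i
    by_cases hi : i = i₀
    · rw [if_pos hi, norm_zero]
      have := htail0 i
      positivity
    · rw [if_neg hi, norm_mul]
      by_cases hiF : i ∈ F₀
      · have h1 : ‖S i‖ ≤ δ * M := hx i (Finset.mem_erase.mpr ⟨hi, hiF⟩)
        have h2 : ‖c i‖ * ‖S i‖ ≤ ‖c i‖ * (δ * M) :=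
          mul_le_mul_of_nonneg_left h1 (norm_nonneg _)
        have h3 : 0 ≤ M * tail i := mul_nonneg hM0.le (htail0 i)
        nlinarith
      · have h1 : tail i = ‖c i‖ := by simp only [htail]; rw [if_neg hiF]
        have h2 : ‖c i‖ * ‖S i‖ ≤ ‖c i‖ * M :=
          mul_le_mul_of_nonneg_left (hSle i) (norm_nonneg _)
        have h3 : 0 ≤ δ * M * ‖c i‖ := by positivity
        rw [h1]
        nlinarith
  have hmaj : Summable fun i => δ * M * ‖c i‖ + M * tail i :=
    (hc.mul_left (δ * M)).add (htail_sum.mul_left M)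
  have hmaj_tsum : ∑' i, (δ * M * ‖c i‖ + M * tail i) = δ * M * T + M * (T - ∑ i ∈ F₀, ‖c i‖) := by
    rw [Summable.tsum_add (hc.mul_left (δ * M)) (htail_sum.mul_left M), tsum_mul_left,
      tsum_mul_left, htail_tsum]
  have hnorm : ‖∑' i, ite (i = i₀) 0 (c i * S i)‖ ≤ δ * M * T + M * (T - ∑ i ∈ F₀, ‖c i‖) := by
    rw [← hmaj_tsum]
    exact tsum_of_norm_bounded hmaj.hasSum hbound
  have hfinal : ‖c i₀‖ * M ≤ δ * M * T + M * (T - ∑ i ∈ F₀, ‖c i‖) := by
    have h1 : ‖c i₀ * (M : ℂ)‖ = ‖c i₀‖ * M := by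
      rw [norm_mul, Complex.norm_real, Real.norm_of_nonneg hM0.le]
    rw [← h1, hrest, norm_neg]
    exact hnorm
  -- divide by `M`
  have h5 : ‖c i₀‖ * M ≤ (δ * T + (T - ∑ i ∈ F₀, ‖c i‖)) * M := by
    calc ‖c i₀‖ * M ≤ δ * M * T + M * (T - ∑ i ∈ F₀, ‖c i‖) := hfinal
      _ = (δ * T + (T - ∑ i ∈ F₀, ‖c i‖)) * M := by ring
  have h6 : ‖c i₀‖ ≤ δ * T + (T - ∑ i ∈ F₀, ‖c i‖) := le_of_mul_le_mul_right h5 hM0
  linarith

end Char

end Fermat.Agent.LT.A2.H231

end
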