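import Mathlib
import Fermat.Agent.LT.A2.Theta
import Fermat.Agent.LT.A2.H231.CharIndep

/-!
# Row LT, tower A2, leaf A2.14 `NeZeroOfWhitC` (helper231)

OFF-MAIN.  Spec: `Fermat/Agent/LT/A2/Theta.lean` (origin/helper950@c68f91cb0, byte-identical copy).

`neZeroOfWhitC231 : NeZeroOfWhitC`.  The hypothesis `AdeleQuotC` is NOT used: instead of the
orthogonality relations on the compact group `𝔸_K / K` we use the elementary
`coeff_eq_zero_of_tsum_eq_zero231` (`ℓ¹`-independence of unitary characters, `CharIndep.lean`).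

Proof.  Assume `φ = 0`, and let `W g₀ ≠ 0`.  With `c α = W(diag(α,1) g₀)` (absolutely summable by
`loc_summable` for the compact set `{g₀}`) the expansion at `n(x) g₀` reads
`0 = ∑_α ψ(α x) c α`, because `diag(α,1) n(x) = n(α x) diag(α,1)`.  Multiplying by `ψ(x)⁻¹` we get
`∑_α c α ψ((α - 1) x) = 0` for all `x`; the characters `x ↦ ψ((α - 1) x)`, `α ≠ 1`, are
nontrivial (`ψ` is nontrivial and `α - 1` is invertible), so `c 1 = W g₀ = 0`: contradiction.
-/

set_option autoImplicit false

open IsDedekindDomain NumberField AutomorphicForm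
open scoped MatrixGroups

noncomputable section

namespace Fermat.Agent.LT.A2.H231

open Fermat.Agent.LT.H130 Fermat.Agent.LT.H556

section Param

variable (K : Type) [Field K] [NumberField K]

/-- The upper unipotent element `[[1, x], [0, 1]]` of `GL₂(𝔸_K)`. -/
def nUnip231 (x : A0.Adl K) : A0.G K :=
  Matrix.GeneralLinearGroup.mk'' !![1, x; 0, 1] (by simp [Matrix.det_fin_two_of])

theorem coe_nUnip231 (x : A0.Adl K) :
    (nUnip231 K x : Matrix (Fin 2) (Fin 2) (A0.Adl K)) = !![1, x; 0, 1] := rfl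

theorem isUpperUnip_nUnip231 : IsUpperUnip (nUnip231 K) := fun x => coe_nUnip231 K x

/-- The rational diagonal element `diag(α, 1)` of `GL₂(𝔸_K)`. -/
def dRat231 (α : Kˣ) : A0.G K :=
  Matrix.GeneralLinearGroup.mk'' !![algebraMap K (A0.Adl K) (α : K), 0; 0, 1]
    (by
      have h : IsUnit (algebraMap K (A0.Adl K) (α : K)) := α.isUnit.map (algebraMap K (A0.Adl K))
      simpa [Matrix.det_fin_two_of] using h)

theorem coe_dRat231 (α : Kˣ) :
    (dRat231 K α : Matrix (Fin 2) (Fin 2) (A0.Adl K))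
      = !![algebraMap K (A0.Adl K) (α : K), 0; 0, 1] := rfl

theorem isRatDiag_dRat231 : IsRatDiag (dRat231 K) := fun α => coe_dRat231 K α

theorem dRat231_one : dRat231 K 1 = 1 := by
  apply Units.ext
  rw [coe_dRat231]
  simp [Matrix.one_fin_two]

/-- `diag(α,1) n(x) = n(α x) diag(α,1)`. -/
theorem dRat231_mul_nUnip231 (α : Kˣ) (x : A0.Adl K) :
    dRat231 K α * nUnip231 K x
      = nUnip231 K (algebraMap K (A0.Adl K) (α : K) * x) * dRat231 K α := by
  apply Units.ext
  rw [Units.val_mul, Units.val_mul, coe_dRat231, coe_nUnip231, coe_nUnip231]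
  generalize algebraMap K (A0.Adl K) (α : K) = a
  simp

end Param

section Main

variable {K : Type} [Field K] [NumberField K]

/-- **Leaf A2.14, for one field.**  A function with a Fourier--Whittaker expansion whose
Whittaker function is not identically zero is not identically zero. -/
theorem neZero_of_preCusp231 {π : HeckeEigensystem K ℂ} {ψ : A0.Adl K → ℂ} {φ W : A0.G K → ℂ}
    (h : PreCusp π ψ φ W) : ∃ g : A0.G K, φ g ≠ 0 := by
  by_contra hcon0
  have hcon : ∀ g : A0.G K, φ g = 0 := fun g => by_contra fun hg => hcon0 ⟨g, hg⟩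
  obtain ⟨g₀, hg₀⟩ := h.W_ne
  obtain ⟨b, hb, hbW⟩ := h.whit.loc_summable {g₀} isCompact_singleton
  -- the coefficients
  set c : Kˣ → ℂ := fun α => W (dRat231 K α * g₀) with hc_def
  have hc : Summable fun α => ‖c α‖ :=
    Summable.of_nonneg_of_le (fun _ => norm_nonneg _)
      (fun α => hbW _ (isRatDiag_dRat231 K) α g₀ rfl) hb
  -- `ψ` is a unitary character
  have hψ : IsUChar231 ψ := ⟨h.char.map_add, h.char.norm_one⟩
  -- the characters
  set η : Kˣ → A0.Adl K → ℂ :=
    fun α x => ψ (algebraMap K (A0.Adl K) ((α : K) - 1) * x) with hη_def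
  have hη : ∀ α, IsUChar231 (η α) := by
    intro α
    refine ⟨fun x y => ?_, fun x => h.char.norm_one _⟩
    simp only [hη_def]
    rw [mul_add, h.char.map_add]
  have h₀ : ∀ x, η 1 x = 1 := by
    intro x
    simp only [hη_def]
    rw [Units.val_one, sub_self, map_zero, zero_mul]
    exact hψ.map_zero
  have hsep : ∀ α : Kˣ, α ≠ 1 → ∃ y, η α y ≠ 1 := by
    intro α hα
    obtain ⟨x₀, hx₀⟩ := h.char.nontriv
    have hne : (α : K) - 1 ≠ 0 := sub_ne_zero.mpr fun h1 => hα (Units.ext h1)
    refine ⟨algebraMap K (A0.Adl K) ((α : K) - 1)⁻¹ * x₀, ?_⟩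
    simp only [hη_def]
    rw [← mul_assoc, ← map_mul, mul_inv_cancel₀ hne, map_one, one_mul]
    exact hx₀
  have hsum : ∀ x, ∑' α, c α * η α x = 0 := by
    intro x
    have h1 : φ (nUnip231 K x * g₀) = ∑' α, W (dRat231 K α * (nUnip231 K x * g₀)) :=
      h.whit.expansion _ (isRatDiag_dRat231 K) _
    rw [hcon] at h1
    have h2 : ∀ α : Kˣ, W (dRat231 K α * (nUnip231 K x * g₀)) = c α * η α x * ψ x := by
      intro α
      rw [← mul_assoc, dRat231_mul_nUnip231, mul_assoc,
        h.whit.equiv _ (isUpperUnip_nUnip231 K)]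
      have h3 : ψ (algebraMap K (A0.Adl K) (α : K) * x) = η α x * ψ x := by
        simp only [hη_def]
        rw [← h.char.map_add]
        congr 1
        rw [map_sub, map_one]
        ring
      rw [h3]
      ring
    have h4 : (∑' α, c α * η α x) * ψ x = 0 := by
      rw [← tsum_mul_right]
      rw [h1]
      exact tsum_congr fun α => (h2 α).symm
    exact (mul_eq_zero.mp h4).resolve_right (hψ.ne_zero x)
  have hzero := coeff_eq_zero_of_tsum_eq_zero231 η hη c hc 1 h₀ hsep hsum
  apply hg₀
  have h5 : c 1 = W g₀ := by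
    simp only [hc_def]
    rw [dRat231_one, one_mul]
  rw [← h5]
  exact hzero

end Main

/-- **Leaf A2.14 `NeZeroOfWhitC`** (the hypothesis `AdeleQuotC` is not used). -/
theorem neZeroOfWhitC231 : NeZeroOfWhitC := by
  intro _ K _ _ π ψ φ W h
  exact neZero_of_preCusp231 h

end Fermat.Agent.LT.A2.H231

end
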